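/-
P-SS (helper17), row 1063 SS-HM9-DER: `modelDerivRegular_h9`, the level-9 twin of helper26's
`Fermat.Agent.H26.SS.modelDerivRegular` (row 962).

`d/dH` (`H = h9S` the Hauptmodul of `X₀(9)`) preserves the valuation rings of the finite places
of the chart `j` of the model field of level `N`, `9 ∣ N`: if `θ · ϑ(H) = ϑ(f)` on
`q`-expansions (`ϑ = t d/dt`) and `f ∈ V` then `θ ∈ V`.

All generic lemmas come from `Fermat.Agent.H26.SS`; only the level-9 leaves are new:
* `derb9_rel`, `derb9_rel_inv` : the relation `j H⁹ (H² + 9 H + 27) = ((H + 9)(H³ + …))³` in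
  polynomial form, in `H` and in `u = 1 / H`;
* `derb9_ord_h9Bar_nonneg`, `derb9_exists_h9Bar_value` : at a non-cuspidal place `H` has a value
  `a` and `H - a` is a uniformiser;
* `derb9_transcendental_H`, `derb9_theta_h9S_ne_zero`.
-/
import Fermat.Agent.H26.SS.DerivRegular
import Fermat.Agent.H31.SS.CrossInterfaces9

set_option autoImplicit false
set_option synthInstance.maxHeartbeats 400000
set_option maxHeartbeats 1000000
set_option linter.unusedSectionVars false
set_option linter.style.haveILetI false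

noncomputable section

open AlgebraicCurve IntermediateField Polynomial ModularCurve KaehlerDifferential

namespace Fermat.Agent.H17.SS

open Fermat.Agent.H23 Fermat.Agent.H22.KL Fermat.Agent.H8.SS Fermat.Agent.H26.SS
open Fermat.Agent.H27.ESD Fermat.Agent.H17.ESD Fermat.Agent.H31.SS

section modular

variable (N : ℕ) [NeZero N]

local notation "Kbar" => AlgebraicClosure ℚ
set_option quotPrecheck false in
local notation "FN" => ↥(ModularCurve.modularFunctionFieldBar N)

/-- the relation `j H⁹ (H² + 9 H + 27) = ((H + 9)(H³ + 243 H² + 2187 H + 6561))³` in polynomial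
form -/
theorem derb9_rel (hN : 9 ∣ N) :
    jBar N * aeval (h9Bar N hN) (X ^ 9 * (X ^ 2 + C 9 * X + C 27) : Kbar[X]) =
      aeval (h9Bar N hN)
        (((X + C 9) * (X ^ 3 + C 243 * X ^ 2 + C 2187 * X + C 6561)) ^ 3 : Kbar[X]) := by
  simp only [map_mul, map_add, map_pow, aeval_X, map_ofNat]
  have hrel := h9Bar_j N hN
  linear_combination hrel

/-- the same relation in the variable `u = 1 / H` -/
theorem derb9_rel_inv (hN : 9 ∣ N) :
    jBar N * aeval (h9Bar N hN)⁻¹ (X * (1 + C 9 * X + C 27 * X ^ 2) : Kbar[X]) =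
      aeval (h9Bar N hN)⁻¹
        (((1 + C 9 * X) * (1 + C 243 * X + C 2187 * X ^ 2 + C 6561 * X ^ 3)) ^ 3 : Kbar[X]) := by
  simp only [map_mul, map_add, map_pow, map_one, aeval_X, map_ofNat]
  have h0 := h9Bar_ne_zero N hN
  have hrel := h9Bar_j N hN
  field_simp
  linear_combination hrel

/-- at a non-cuspidal place the Hauptmodul `H` of level 9 has no pole -/
theorem derb9_ord_h9Bar_nonneg (hN : 9 ∣ N) (w : Place Kbar FN) (hj : 0 ≤ w.ord (jBar N)) :
    0 ≤ w.ord (h9Bar N hN) := by
  by_contra hneg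
  rw [not_le] at hneg
  have hh0 := h9Bar_ne_zero N hN
  have hu : 0 < w.ord ((h9Bar N hN)⁻¹ - algebraMap Kbar FN 0) := by
    rw [map_zero, sub_zero, Place.ord_inv]
    omega
  have hP1 : aeval (h9Bar N hN)⁻¹ (X * (1 + C 9 * X + C 27 * X ^ 2) : Kbar[X]) ≠ 0 := by
    simp only [map_mul, map_add, map_pow, map_one, aeval_X, map_ofNat]
    refine mul_ne_zero (inv_ne_zero hh0) ?_
    have hq := h9Bar_quad_ne_zero N hN
    have e : (1 : FN) + 9 * (h9Bar N hN)⁻¹ + 27 * (h9Bar N hN)⁻¹ ^ 2 =
        (h9Bar N hN ^ 2 + 9 * h9Bar N hN + 27) * ((h9Bar N hN)⁻¹) ^ 2 := by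
      field_simp
    rw [e]
    exact mul_ne_zero hq (pow_ne_zero 2 (inv_ne_zero hh0))
  have h := derb_ord_neg_of_rel w hu _ _ (derb9_rel_inv N hN) (by simp) (by simp) hP1
  omega

/-- **at a non-cuspidal place, `H` has a value `a` and `H - a` is a uniformiser** (level 9) -/
theorem derb9_exists_h9Bar_value (hN : 9 ∣ N) (w : Place Kbar FN) (hj : 0 ≤ w.ord (jBar N)) :
    ∃ a : Kbar, w.ord (h9Bar N hN - algebraMap Kbar FN a) = 1 := by
  have hord := derb9_ord_h9Bar_nonneg N hN w hj
  obtain ⟨a, ha | ha⟩ := exists_const_ord_sub_pos w (derb_deg_one N w) (Or.inr hord)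
  · exact absurd (ha ▸ isAlgebraic_algebraMap a) (h9Bar_transcendental N hN)
  have hP1 : aeval (h9Bar N hN) (X ^ 9 * (X ^ 2 + C 9 * X + C 27) : Kbar[X]) ≠ 0 := by
    simp only [map_mul, map_add, map_pow, aeval_X, map_ofNat]
    exact mul_ne_zero (pow_ne_zero 9 (h9Bar_ne_zero N hN)) (h9Bar_quad_ne_zero N hN)
  have hne : (X ^ 9 * (X ^ 2 + C 9 * X + C 27) : Kbar[X]).eval a = 0 →
      (((X + C 9) * (X ^ 3 + C 243 * X ^ 2 + C 2187 * X + C 6561)) ^ 3 : Kbar[X]).eval a ≠ 0 →
      False := by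
    intro h1 h2
    have h := derb_ord_neg_of_rel w ha _ _ (derb9_rel N hN) h1 h2 hP1
    omega
  have h27 : (27 : Kbar) ≠ 0 := by norm_num
  refine ⟨a, ord_h9Bar_sub_eq_one N hN w ?_ ?_ ha⟩
  · intro h0
    subst h0
    refine hne (by simp) ?_
    simp only [eval_pow, eval_add, eval_mul, eval_C, eval_X]
    norm_num
  · intro h0
    refine hne ?_ ?_
    · simp only [eval_pow, eval_add, eval_mul, eval_C, eval_X]
      rw [h0, mul_zero]
    · simp only [eval_pow, eval_add, eval_mul, eval_C, eval_X]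
      refine pow_ne_zero 3 (mul_ne_zero ?_ ?_)
      · intro hc
        exact h27 (by linear_combination h0 - a * hc)
      · intro hc
        have e : (54 : Kbar) * a + 243 = 0 := by
          linear_combination hc - (a + 234) * h0
        exact h27 (by linear_combination 4 * h0 - (2 * a + 9) / 27 * e)

end modular

/-! ### the main theorem -/

section main

variable (N : ℕ) [NeZero N]

/-- `H` is transcendental over the constants (level 9) -/
theorem derb9_transcendental_H (K₁ : Type) [Field K₁] [Algebra ℚ K₁] (H : ModelField K₁ N)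
    (hH : (H : LaurentSeries K₁) = h9S K₁) : Transcendental K₁ H := by
  intro h
  have h1 : IsAlgebraic K₁ (algebraMap (ModelField K₁ N) (LaurentSeries K₁) H) :=
    (isAlgebraic_algebraMap_iff
      (algebraMap (ModelField K₁ N) (LaurentSeries K₁)).injective).mpr h
  have h2 : IsAlgebraic K₁ (h9S K₁) := by
    rw [← hH]
    exact h1
  exact (transcendental_iff_injective.mpr (aeval_h9S_injective K₁)) h2

/-- `ϑ(H) ≠ 0` (level 9) -/
theorem derb9_theta_h9S_ne_zero (K₁ : Type) [Field K₁] : theta (h9S K₁) ≠ 0 := by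
  intro h0
  have h1 := congrArg (fun y : LaurentSeries K₁ => y.coeff (-1)) h0
  simp only [theta_coeff, h9S_coeff_neg_one, HahnSeries.coeff_zero, mul_one] at h1
  have h2 : ((-1 : ℤ) : K₁) = -1 := by push_cast; rfl
  rw [h2] at h1
  exact neg_ne_zero.mpr one_ne_zero h1

/-- **HM-DER, level 9**: `d/dH` preserves the valuation rings of the finite places of the chart
`j` of the model field of level `N`, `9 ∣ N`. -/
theorem modelDerivRegular_h9 (h9 : 9 ∣ N) :
    Fermat.Agent.H31.SS.ModelDerivRegularH9Statement N := by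
  intro K₁ _ _ _ A₀ _ _ _ _ _ _ _ x H f θ hx hH hθ V hV hfV
  -- an embedding of `K₁` into `ℚ̄`
  haveI : Algebra.IsAlgebraic ℚ K₁ := Algebra.IsAlgebraic.of_finite ℚ K₁
  let φ : K₁ →ₐ[ℚ] AlgebraicClosure ℚ := IsAlgClosed.lift
  letI algK : Algebra K₁ (AlgebraicClosure ℚ) := φ.toRingHom.toAlgebra
  haveI tow : IsScalarTower ℚ K₁ (AlgebraicClosure ℚ) :=
    IsScalarTower.of_algebraMap_eq (fun a => (φ.commutes a).symm)
  haveI : Algebra.IsAlgebraic ℚ (AlgebraicClosure ℚ) := AlgebraicClosure.isAlgebraic ℚ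
  haveI : Algebra.IsAlgebraic K₁ (AlgebraicClosure ℚ) :=
    Algebra.IsAlgebraic.tower_top (K := ℚ) K₁
  haveI : CharZero K₁ := algebraRat.charZero K₁
  -- the comparison map
  let ι : ModelField K₁ N →+* ↥(modularFunctionFieldBar N) :=
    Fermat.Agent.H93.KL.klBc φ.toRingHom (modularFunctionFieldFull N)
  have hι : ∀ a : K₁, ι (algebraMap K₁ (ModelField K₁ N) a) =
      algebraMap (AlgebraicClosure ℚ) ↥(modularFunctionFieldBar N)
        (algebraMap K₁ (AlgebraicClosure ℚ) a) := fun a =>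
    Fermat.Agent.H73.KLDesc.klBc_algebraMap φ.toRingHom (modularFunctionFieldFull N) a
  have hxj : ι x = jBar N := by
    apply Subtype.ext
    show coeffMap φ.toRingHom (x : LaurentSeries K₁) = coeffEmb (AlgebraicClosure ℚ) jq
    rw [hx, coeffEmb, coeffEmb, coeffMap_coeffMap]
    exact coeffMap_congr (Subsingleton.elim _ _) jq
  have hHj : ι H = h9Bar N h9 := by
    apply Subtype.ext
    show coeffMap φ.toRingHom (H : LaurentSeries K₁) = h9S (AlgebraicClosure ℚ)
    rw [hH, coeffMap_h9S]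
  have hxe : x = Fermat.Agent.H54.jElt K₁ N := Fermat.Agent.H2.klbr_model_x_eq N K₁ x hx
  have hfin : FiniteDimensional K₁⟮x⟯ (ModelField K₁ N) := by
    rw [hxe]
    exact Fermat.Agent.H54.finiteDimensional_adjoin_jElt K₁ N
  -- `df = θ dH`
  have hθH : theta (H : LaurentSeries K₁) ≠ 0 := by
    rw [hH]
    exact derb9_theta_h9S_ne_zero K₁
  have hD := derb_D_eq_of_theta (laurentBaseChange K₁ (modularFunctionFieldFull N)) x hfin
    H f θ (derb9_transcendental_H N K₁ H hH) hθH hθ
  -- the places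
  obtain ⟨w, e', he', hw⟩ := Fermat.Agent.H2.klbr_place_above ι hι (jBar N)
    (Fermat.Agent.H17.ESD.jBar_transcendental N) (degreeStatement_holds N).2.1
    (Fermat.Agent.H2.placeOfIsPlace (K0 := K₁) V hV.1)
  have he'Z : (0 : ℤ) < (e' : ℤ) := by exact_mod_cast he'
  have hwj : 0 ≤ w.ord (jBar N) := by
    rw [← hxj, hw]
    exact mul_nonneg he'Z.le
      (ord_nonneg_of_mem (Fermat.Agent.H2.placeOfIsPlace (K0 := K₁) V hV.1) hV.2)
  have hwf : 0 ≤ w.ord (ι f) := by
    rw [hw]
    exact mul_nonneg he'Z.le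
      (ord_nonneg_of_mem (Fermat.Agent.H2.placeOfIsPlace (K0 := K₁) V hV.1) hfV)
  obtain ⟨a, ha⟩ := derb9_exists_h9Bar_value N h9 w hwj
  obtain ⟨M, _, val, der, σ, m, der_add, der_mul, val_der, hm, der_const, hval⟩ :=
    derb_exists_valDiff N w hwj
  have hder : der (σ (ι f)) = σ (ι θ) * der (σ (ι H)) :=
    derb_der_eq_of_D_eq der der_add der_mul (σ.comp ι)
      (fun c => by
        show der (σ (ι (algebraMap K₁ (ModelField K₁ N) c))) = 0
        rw [hι]
        exact der_const _) f H θ hD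
  have hθw : 0 ≤ w.ord (ι θ) :=
    derb_ord_nonneg_of_der_eq val der der_add val_der σ der_const w (derb_deg_one N w) m hm
      hval (ι H) (ι f) (ι θ) a (by rw [hHj]; exact ha) hwf hder
  rw [hw] at hθw
  have hθv : 0 ≤ (Fermat.Agent.H2.placeOfIsPlace (K0 := K₁) V hV.1).ord θ := by
    by_contra hneg
    rw [not_le] at hneg
    have := mul_neg_of_pos_of_neg he'Z hneg
    omega
  exact mem_of_ord_nonneg (Fermat.Agent.H2.placeOfIsPlace (K0 := K₁) V hV.1) hθv

end main

end Fermat.Agent.H17.SS
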