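import Fermat.Agent.H55.SS.KTContract

/-!
# P-SS / S35, block (KT), row KT-C4 (LOCDATA): the local data `KtLoc` at every closed point

Formal assembly.  Chart setting of `Fermat.Agent.H55.SS.KtAbsStatement`: `A` a discrete
valuation ring, `ϖ` a uniformiser, `y` a chart coordinate, `V₁ ≠ V₂` the two vertical valuations.

* `RegLAt A E₀ ϖ y V₁ V₂ 𝔪` : the regularity trichotomy at a closed point `𝔪` (output of row
  REGL): `𝔪` is a regular point on exactly one of the two components, or a node.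
* `ktLoc_of_regLAt` : at such a point, every `u ≡ 1` on `V₁` and `V₂` whose order at every place
  centred at `𝔪` is divisible by `n` has local data `KtLoc` (from `RegFactStatement`,
  `LPZOneStatement`, `LPZTwoStatement` and the `Ψ`-stability of the nodes).
* `KtLocDataStatement` : the same packaged over all closed points of a chart, with the
  divisibility hypothesis at all places (`Fermat.Agent.H22.KL.IsPlace`);
  `ktLocData : RegFact → LPZOne → LPZTwo → KtLocDataStatement`.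
-/

set_option autoImplicit false

noncomputable section

namespace Fermat.Agent.H17.SS

open Fermat.Agent.H22.KL Fermat.Agent.H11.SS2 Fermat.Agent.H55.SS

section basic

variable {E₀ : Type} [Field E₀]

/-- `u ≡ 1` modulo the maximal ideal of `V` implies `u ∈ V`. -/
theorem ktl_mem_of_sub_one_mem (V : ValuationSubring E₀) {u : E₀} (h : u - 1 ∈ V.nonunits) :
    u ∈ V := by
  have h1 : V.valuation (u - 1) < 1 := (ValuationSubring.mem_nonunits_iff V).mp h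
  have h2 : V.valuation (1 + (u - 1)) = 1 := Valuation.map_one_add_of_lt _ h1
  have e : 1 + (u - 1) = u := by ring
  rw [e] at h2
  exact (V.valuation_le_one_iff u).mp h2.le

/-- `u ≡ 1` modulo the maximal ideal of `V` implies `u⁻¹ ∈ V`. -/
theorem ktl_inv_mem_of_sub_one_mem (V : ValuationSubring E₀) {u : E₀}
    (h : u - 1 ∈ V.nonunits) : u⁻¹ ∈ V := by
  have h1 : V.valuation (u - 1) < 1 := (ValuationSubring.mem_nonunits_iff V).mp h
  have h2 : V.valuation (1 + (u - 1)) = 1 := Valuation.map_one_add_of_lt _ h1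
  have e : 1 + (u - 1) = u := by ring
  rw [e] at h2
  apply (V.valuation_le_one_iff u⁻¹).mp
  rw [map_inv₀, h2, inv_one]

/-- `u ≡ 1` modulo the maximal ideal of `V`: the order of `u` at `V` is divisible by any `n`. -/
theorem ktl_ordDvd_of_sub_one_mem (V : ValuationSubring E₀) (n : ℕ) {u : E₀}
    (h : u - 1 ∈ V.nonunits) : OrdDvd E₀ V n u := by
  refine ⟨1, one_ne_zero, ?_, ?_⟩
  · rw [one_pow, mul_one]
    exact ktl_mem_of_sub_one_mem V h
  · rw [one_pow, mul_one]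
    exact ktl_inv_mem_of_sub_one_mem V h

theorem ktl_congrAt_one (V : ValuationSubring E₀) {u : E₀} (h : u - 1 ∈ V.nonunits) :
    CongrAt E₀ V u 1 :=
  ⟨ktl_mem_of_sub_one_mem V h, h⟩

end basic

section main

variable (A : Type) [CommRing A] (E₀ : Type) [Field E₀] [Algebra A E₀]

/-- **The regularity trichotomy at a closed point `𝔪`** (output of row REGL): either `𝔪` is a
regular point of the component `V₁` and `V₂` does not pass through `𝔪`, or the same with `V₁`,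
`V₂` exchanged, or `𝔪` is a node: a regular point of both components with local equations
`X₁` (of `V₁`) and `Y₁` (of `V₂`). -/
def RegLAt (ϖ : A) (y : E₀) (V₁ V₂ : ValuationSubring E₀)
    (𝔪 : Ideal (chartClosure A E₀ y)) : Prop :=
  ((∃ x₁ x₂ : E₀, IsRegPoint A E₀ ϖ y 𝔪 V₁ x₁ x₂) ∧ ¬ Through A E₀ y 𝔪 V₂) ∨
  ((∃ x₁ x₂ : E₀, IsRegPoint A E₀ ϖ y 𝔪 V₂ x₁ x₂) ∧ ¬ Through A E₀ y 𝔪 V₁) ∨
  (∃ X₁ Y₁ : E₀, IsRegPoint A E₀ ϖ y 𝔪 V₁ X₁ Y₁ ∧ IsRegPoint A E₀ ϖ y 𝔪 V₂ Y₁ X₁)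

variable {A E₀}

/-- `¬ Through` is `KtAway`. -/
theorem ktl_away_of_not_through {y : E₀} {𝔪 : Ideal (chartClosure A E₀ y)}
    {W : ValuationSubring E₀} (h : ¬ Through A E₀ y 𝔪 W) : KtAway A E₀ y 𝔪 W := by
  unfold Through at h
  push Not at h
  exact h

/-- The `(sm)` form of REGL: `V` is the only vertical valuation through `𝔪`. -/
theorem ktl_not_through_of_only {ϖ : A} {y : E₀} {𝔪 : Ideal (chartClosure A E₀ y)}
    {V W : ValuationSubring E₀} (hW : IsVertical A E₀ ϖ y W) (hne : W ≠ V)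
    (honly : ∀ V' : ValuationSubring E₀, IsVertical A E₀ ϖ y V' → Through A E₀ y 𝔪 V' → V' = V) :
    ¬ Through A E₀ y 𝔪 W :=
  fun h => hne (honly W hW h)

variable [IsDomain A] [IsDiscreteValuationRing A] [CharZero E₀]

/-- **KT-C4 at one closed point.** -/
theorem ktLoc_of_regLAt (hRF : RegFactStatement) (hL1 : LPZOneStatement)
    (hL2 : LPZTwoStatement)
    (hinj : Function.Injective (algebraMap A E₀))
    (q : ℕ) (hq : q.Prime) (hirr : Irreducible ((q : ℕ) : A))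
    (y : E₀) (hy : Transcendental A y)
    (hbasis : ∃ d : ℕ, Nonempty (Module.Basis (Fin d) (chartField A E₀ y) E₀))
    (n : ℕ) (hn : 0 < n) (hnu : IsUnit ((n : ℕ) : A)) (ζ : A) (hζ : IsPrimitiveRoot ζ n)
    (V₁ V₂ : ValuationSubring E₀) (hne : V₁ ≠ V₂)
    (hvert : ∀ V' : ValuationSubring E₀, IsVertical A E₀ ((q : ℕ) : A) y V' →
      V' = V₁ ∨ V' = V₂)
    (Ψ : E₀ ≃+* E₀)
    (𝔪 : Ideal (chartClosure A E₀ y)) (h𝔪 : 𝔪.IsMaximal)
    (hq𝔪 : algebraMap A (chartClosure A E₀ y) ((q : ℕ) : A) ∈ 𝔪)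
    (hREG : RegLAt A E₀ ((q : ℕ) : A) y V₁ V₂ 𝔪)
    (hFR : Through A E₀ y 𝔪 V₁ → Through A E₀ y 𝔪 V₂ →
      ∀ s : chartClosure A E₀ y, s ∈ 𝔪 → ∀ h : Ψ (s : E₀) ∈ chartClosure A E₀ y,
        (⟨Ψ (s : E₀), h⟩ : chartClosure A E₀ y) ∈ 𝔪)
    (u : E₀) (hu0 : u ≠ 0) (hu1 : u - 1 ∈ V₁.nonunits) (hu2 : u - 1 ∈ V₂.nonunits)
    (hord : ∀ V' : ValuationSubring E₀, Fermat.Agent.H45.CentredAt A E₀ y 𝔪 V' →
      OrdDvd E₀ V' n u) :
    KtLoc A E₀ n y Ψ V₁ V₂ u 𝔪 := by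
  have hqA : ¬ IsUnit ((q : ℕ) : A) := hirr.not_isUnit
  -- the order of `u` at the verticals is trivially divisible by `n`
  have hordV : ∀ V' : ValuationSubring E₀, IsVertical A E₀ ((q : ℕ) : A) y V' →
      Through A E₀ y 𝔪 V' → OrdDvd E₀ V' n u := by
    intro V' hV' _
    rcases hvert V' hV' with rfl | rfl
    · exact ktl_ordDvd_of_sub_one_mem _ n hu1
    · exact ktl_ordDvd_of_sub_one_mem _ n hu2
  rcases hREG with ⟨⟨x₁, x₂, hreg⟩, haway⟩ | ⟨⟨x₁, x₂, hreg⟩, haway⟩ | ⟨X₁, Y₁, hreg₁, hreg₂⟩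
  · -- one branch: `V₁`
    right; left
    obtain ⟨p, hp0, hp⟩ := hRF A E₀ hinj _ hirr y hy hbasis 𝔪 h𝔪 hq𝔪 V₁ x₁ x₂ hreg n hn u hu0
      hord hordV
    have honly : ∀ V' : ValuationSubring E₀, IsVertical A E₀ ((q : ℕ) : A) y V' →
        Through A E₀ y 𝔪 V' → V' = V₁ := by
      intro V' hV' hT
      rcases hvert V' hV' with rfl | rfl
      · rfl
      · exact absurd hT haway
    obtain ⟨Hinv, hH1, hH2⟩ := hL1 A E₀ hinj _ hirr y hy hbasis 𝔪 h𝔪 hq𝔪 V₁ x₁ x₂ hreg honly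
      n hn u p (ktl_congrAt_one V₁ hu1) hp0 hp
    exact ⟨hreg.thru, ktl_away_of_not_through haway, Hinv, hH2, hH1⟩
  · -- one branch: `V₂`
    right; right
    obtain ⟨p, hp0, hp⟩ := hRF A E₀ hinj _ hirr y hy hbasis 𝔪 h𝔪 hq𝔪 V₂ x₁ x₂ hreg n hn u hu0
      hord hordV
    have honly : ∀ V' : ValuationSubring E₀, IsVertical A E₀ ((q : ℕ) : A) y V' →
        Through A E₀ y 𝔪 V' → V' = V₂ := by
      intro V' hV' hT
      rcases hvert V' hV' with rfl | rfl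
      · exact absurd hT haway
      · rfl
    obtain ⟨Hinv, hH1, hH2⟩ := hL1 A E₀ hinj _ hirr y hy hbasis 𝔪 h𝔪 hq𝔪 V₂ x₁ x₂ hreg honly
      n hn u p (ktl_congrAt_one V₂ hu2) hp0 hp
    exact ⟨hreg.thru, ktl_away_of_not_through haway, Hinv, hH2, hH1⟩
  · -- a node
    left
    obtain ⟨p, hp0, hp⟩ := hRF A E₀ hinj _ hirr y hy hbasis 𝔪 h𝔪 hq𝔪 V₁ X₁ Y₁ hreg₁ n hn u hu0
      hord hordV
    obtain ⟨Hinv, c₁, c₂, hc₁, hc₂, hunit, hH1, hH2⟩ :=
      hL2 A E₀ hinj _ hirr y hy hbasis q hq hqA 𝔪 h𝔪 hq𝔪 V₁ V₂ X₁ Y₁ hne hreg₁ hreg₂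
        (fun V' hV' _ => hvert V' hV') n hn hnu ζ hζ u p (ktl_congrAt_one V₁ hu1)
        (ktl_congrAt_one V₂ hu2) hp0 hp
    exact ⟨hFR hreg₁.thru hreg₂.thru, Hinv, c₁, c₂, hc₁, hc₂, hH1, hH2, hunit⟩

end main

/-- **KT-C4 (LOCDATA)**, packaged for one chart `y`: if every closed point of the chart `B(y)`
on the special fibre satisfies the regularity trichotomy `RegLAt` and the nodes are `Ψ`-stable,
then every `u ≡ 1` on `V₁`, `V₂` whose order at every place of `E₀ / K₀` is divisible by `n` has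
local data `KtLoc` at every closed point. -/
def KtLocDataStatement : Prop :=
  ∀ (A : Type) [CommRing A] [IsDomain A] [IsDiscreteValuationRing A]
    (E₀ : Type) [Field E₀] [Algebra A E₀] [CharZero E₀],
    Function.Injective (algebraMap A E₀) →
    ∀ (q : ℕ), q.Prime → Irreducible ((q : ℕ) : A) →
    ∀ (y : E₀), Transcendental A y →
    (∃ d : ℕ, Nonempty (Module.Basis (Fin d) (chartField A E₀ y) E₀)) →
    ∀ (n : ℕ), 0 < n → IsUnit ((n : ℕ) : A) → ∀ (ζ : A), IsPrimitiveRoot ζ n →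
    ∀ (V₁ V₂ : ValuationSubring E₀), V₁ ≠ V₂ →
    (∀ V' : ValuationSubring E₀, IsVertical A E₀ ((q : ℕ) : A) y V' → V' = V₁ ∨ V' = V₂) →
    ∀ (Ψ : E₀ ≃+* E₀),
    -- REGL
    (∀ 𝔪 : Ideal (chartClosure A E₀ y), 𝔪.IsMaximal →
      algebraMap A (chartClosure A E₀ y) ((q : ℕ) : A) ∈ 𝔪 →
      RegLAt A E₀ ((q : ℕ) : A) y V₁ V₂ 𝔪) →
    -- FR-3
    (∀ 𝔪 : Ideal (chartClosure A E₀ y), 𝔪.IsMaximal →
      algebraMap A (chartClosure A E₀ y) ((q : ℕ) : A) ∈ 𝔪 →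
      Through A E₀ y 𝔪 V₁ → Through A E₀ y 𝔪 V₂ →
      ∀ s : chartClosure A E₀ y, s ∈ 𝔪 → ∀ h : Ψ (s : E₀) ∈ chartClosure A E₀ y,
        (⟨Ψ (s : E₀), h⟩ : chartClosure A E₀ y) ∈ 𝔪) →
    ∀ (u : E₀), u ≠ 0 → u - 1 ∈ V₁.nonunits → u - 1 ∈ V₂.nonunits →
    (∀ V' : ValuationSubring E₀, IsPlace A E₀ V' → OrdDvd E₀ V' n u) →
    ∀ 𝔪 : Ideal (chartClosure A E₀ y), 𝔪.IsMaximal →
      algebraMap A (chartClosure A E₀ y) ((q : ℕ) : A) ∈ 𝔪 →
      KtLoc A E₀ n y Ψ V₁ V₂ u 𝔪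

/-- **KT-C4 (LOCDATA)** from REGFACT, LPZ (one branch) and LPZ (two branches). -/
theorem ktLocData (hRF : RegFactStatement) (hL1 : LPZOneStatement) (hL2 : LPZTwoStatement) :
    KtLocDataStatement := by
  intro A _ _ _ E₀ _ _ _ hinj q hq hirr y hy hbasis n hn hnu ζ hζ V₁ V₂ hne hvert Ψ hREG hFR
    u hu0 hu1 hu2 hord 𝔪 h𝔪 hq𝔪
  exact ktLoc_of_regLAt hRF hL1 hL2 hinj q hq hirr y hy hbasis n hn hnu ζ hζ V₁ V₂ hne hvert Ψ
    𝔪 h𝔪 hq𝔪 (hREG 𝔪 h𝔪 hq𝔪) (hFR 𝔪 h𝔪 hq𝔪) u hu0 hu1 hu2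
    (fun V' hV' => hord V' hV'.1.1)

end Fermat.Agent.H17.SS
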